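import Fermat.Agent.Frobenius.Lifting

/-!
Existence of places above a prime, conjugation of Frobenius and inertia, and lifting of
congruences from a normal subextension.
-/

set_option autoImplicit false

open scoped Pointwise

namespace FLTAgent.Frobenius

/-- There is a place of `ℚ̄` over every prime. -/
theorem exists_liesOverPrime {l : ℕ} (hl : l.Prime) :
    ∃ A : ValuationSubring (AlgebraicClosure ℚ), A.LiesOverPrime l := by
  have hne : Ideal.span {(⟨(l : AlgebraicClosure ℚ), natCast_mem _ l⟩ :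
      (⊥ : Subring (AlgebraicClosure ℚ)))} ≠ ⊤ := by
    intro h
    obtain ⟨⟨c, hc⟩, hcl⟩ := Ideal.mem_span_singleton'.mp (h ▸ Submodule.mem_top (x := 1))
    obtain ⟨n, rfl⟩ := Subring.mem_bot.mp hc
    have h1 : ((n * l : ℤ) : AlgebraicClosure ℚ) = ((1 : ℤ) : AlgebraicClosure ℚ) := by
      simpa using congrArg Subtype.val hcl
    have h2 : n * l = 1 := Int.cast_injective h1
    have h3 : ((l : ℕ) : ℤ) ∣ ((1 : ℕ) : ℤ) := ⟨n, by rw [mul_comm]; simpa using h2.symm⟩
    exact hl.ne_one (Nat.dvd_one.mp (Int.natCast_dvd_natCast.mp h3))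
  obtain ⟨V, -, hV⟩ := Ideal.image_subset_nonunits_valuationSubring _ hne
  exact ⟨V, hV ⟨_, Ideal.mem_span_singleton_self _, rfl⟩⟩

/-- For every prime there is a place above it together with a Frobenius element. -/
theorem exists_liesOverPrime_isFrobeniusAt {l : ℕ} (hl : l.Prime) :
    ∃ (A : ValuationSubring (AlgebraicClosure ℚ)) (σ : Γℚ),
      A.LiesOverPrime l ∧ A.IsFrobeniusAt σ l := by
  obtain ⟨A, hA⟩ := exists_liesOverPrime hl
  obtain ⟨σ, hσ⟩ := exists_isFrobeniusAt hl hA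
  exact ⟨A, σ, hA, hσ⟩

lemma liesOverPrime_smul {A : ValuationSubring (AlgebraicClosure ℚ)} {l : ℕ}
    (hA : A.LiesOverPrime l) (τ : Γℚ) : (τ • A).LiesOverPrime l := by
  rw [liesOverPrime_iff, centre_smul, Ideal.mem_pointwise_smul_iff_inv_smul_mem]
  convert liesOverPrime_iff.mp hA using 1
  exact Subtype.ext (by simp)

/-- Frobenius elements at conjugate places are conjugate. -/
theorem isFrobeniusAt_conj {A : ValuationSubring (AlgebraicClosure ℚ)} {σ : Γℚ} {q : ℕ}
    (hq : 0 < q) (h : A.IsFrobeniusAt σ q) (τ : Γℚ) :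
    (τ • A).IsFrobeniusAt (τ * σ * τ⁻¹) q := by
  rw [isFrobeniusAt_iff_centre hq] at h ⊢
  intro x
  rw [centre_smul, Ideal.mem_pointwise_smul_iff_inv_smul_mem, smul_sub, smul_pow', mul_smul,
    mul_smul, inv_smul_smul]
  exact h (τ⁻¹ • x)

/-- Inertia groups at conjugate places are conjugate. -/
theorem inertiaSubgroupIn_conj {A : ValuationSubring (AlgebraicClosure ℚ)} {σ : Γℚ}
    (h : σ ∈ A.inertiaSubgroupIn ℚ) (τ : Γℚ) :
    τ * σ * τ⁻¹ ∈ (τ • A).inertiaSubgroupIn ℚ := by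
  rw [mem_inertiaSubgroupIn_iff_centre] at h ⊢
  intro x
  rw [centre_smul, Ideal.mem_pointwise_smul_iff_inv_smul_mem, smul_sub, mul_smul,
    mul_smul, inv_smul_smul]
  exact h (τ⁻¹ • x)

/-- Two Frobenius elements at the same place differ by inertia. -/
theorem inv_mul_mem_inertiaSubgroupIn {A : ValuationSubring (AlgebraicClosure ℚ)} {σ σ' : Γℚ}
    {q : ℕ} (hq : 0 < q) (h : A.IsFrobeniusAt σ q) (h' : A.IsFrobeniusAt σ' q) :
    σ⁻¹ * σ' ∈ A.inertiaSubgroupIn ℚ := by
  have hdec : σ⁻¹ • A = A :=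
    inv_smul_eq_iff.mpr (MulAction.mem_stabilizer_iff.mp h.mem_decompositionSubgroup).symm
  rw [isFrobeniusAt_iff_centre hq] at h h'
  rw [mem_inertiaSubgroupIn_iff_centre]
  intro x
  rw [← hdec, centre_smul, Ideal.mem_pointwise_smul_iff_inv_smul_mem, inv_inv, smul_sub, mul_smul,
    smul_inv_smul]
  simpa using sub_mem (h' x) (h x)

theorem isFrobeniusAt_mul_of_mem_inertiaSubgroupIn
    {A : ValuationSubring (AlgebraicClosure ℚ)} {σ ι : Γℚ} {q : ℕ}
    (hq : 0 < q) (h : A.IsFrobeniusAt σ q) (hι : ι ∈ A.inertiaSubgroupIn ℚ) :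
    A.IsFrobeniusAt (σ * ι) q := by
  have hdec : σ • A = A := MulAction.mem_stabilizer_iff.mp h.mem_decompositionSubgroup
  rw [isFrobeniusAt_iff_centre hq] at h ⊢
  rw [mem_inertiaSubgroupIn_iff_centre] at hι
  intro x
  have h1 : σ • (ι • x - x) ∈ centre A := by
    rw [← hdec, centre_smul, Ideal.mem_pointwise_smul_iff_inv_smul_mem, inv_smul_smul]
    exact hι x
  have := add_mem h1 (h x)
  rwa [smul_sub, sub_add_sub_cancel, ← mul_smul] at this

section profinite

local instance isGalois_qbar' : IsGalois ℚ (AlgebraicClosure ℚ) :=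
  have : Algebra.IsAlgebraic ℚ (AlgebraicClosure ℚ) := AlgebraicClosure.isAlgebraic ℚ
  have : IsAlgClosure ℚ (AlgebraicClosure ℚ) := ⟨inferInstance, inferInstance⟩
  { to_normal := IsAlgClosure.normal ℚ (AlgebraicClosure ℚ) }

/-- An element of the Galois group inducing the identity modulo the centre of `A` on a normal
subextension agrees there with an element of the inertia group of `A`. -/
theorem exists_mem_inertiaSubgroupIn_eqOn (L : IntermediateField ℚ (AlgebraicClosure ℚ))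
    [Normal ℚ L] {A : ValuationSubring (AlgebraicClosure ℚ)} (g : Γℚ)
    (hg : ∀ x : Zbar, (x : AlgebraicClosure ℚ) ∈ L → g • x - x ∈ centre A) :
    ∃ ι ∈ A.inertiaSubgroupIn ℚ, ∀ x ∈ L, ι x = g x := by
  let : TopologicalSpace Zbar := ⊥
  have : DiscreteTopology Zbar := ⟨rfl⟩
  have : Algebra.IsAlgebraic ℚ (AlgebraicClosure ℚ) := AlgebraicClosure.isAlgebraic ℚ
  let H : Subgroup Γℚ := L.fixingSubgroup
  have : CompactSpace H :=
    isCompact_iff_compactSpace.mp (InfiniteGalois.fixingSubgroup_isClosed L).isCompact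
  have : ContinuousSMul H Zbar := by
    rw [continuousSMul_iff_stabilizer_isOpen]
    intro x
    have : (MulAction.stabilizer H x : Set H) =
        Subtype.val ⁻¹' (MulAction.stabilizer Γℚ (x : AlgebraicClosure ℚ) : Set Γℚ) := by
      ext σ
      simp only [SetLike.mem_coe, Set.mem_preimage, MulAction.mem_stabilizer_iff, Subtype.ext_iff]
      rfl
    rw [this]
    have hop : IsOpen (MulAction.stabilizer Γℚ (x : AlgebraicClosure ℚ) : Set Γℚ) :=
      stabilizer_isOpen_of_isIntegral (K := ℚ) (L := AlgebraicClosure ℚ) _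
    exact hop.preimage continuous_subtype_val
  let B' : Subalgebra ℤ Zbar := FixedPoints.subalgebra ℤ Zbar H
  have : SMulCommClass H B' Zbar := ⟨fun h a x ↦ by
    show h • ((a : Zbar) * x) = (a : Zbar) * (h • x)
    rw [smul_mul', a.2 h]⟩
  have : Algebra.IsInvariant B' Zbar H := ⟨fun b hb ↦ ⟨⟨b, hb⟩, rfl⟩⟩
  have hB' : ∀ x : Zbar, (∀ h : H, h • x = x) ↔ (x : AlgebraicClosure ℚ) ∈ L := by
    intro x
    conv_rhs => rw [← InfiniteGalois.fixedField_fixingSubgroup L]
    rw [IntermediateField.mem_fixedField_iff]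
    exact ⟨fun h σ hσ ↦ congrArg Subtype.val (h ⟨σ, hσ⟩),
      fun h σ ↦ Subtype.ext (h (σ : Γℚ) σ.2)⟩
  have hgL : ∀ x ∈ L, g⁻¹ x ∈ L := fun x hx ↦ by
    have h1 : g⁻¹ x = algebraMap L _ (AlgEquiv.restrictNormal g⁻¹ L ⟨x, hx⟩) :=
      (AlgEquiv.restrictNormal_commutes g⁻¹ L ⟨x, hx⟩).symm
    rw [h1]
    exact SetLike.coe_mem _
  -- first adjust `g` to fix the centre
  have hunder : (g • centre A).under B' = (centre A).under B' := by
    ext ⟨x, hx⟩
    simp only [Ideal.under, Ideal.mem_comap]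
    show x ∈ g • centre A ↔ x ∈ centre A
    rw [Ideal.mem_pointwise_smul_iff_inv_smul_mem]
    have hy := hg (g⁻¹ • x) (hgL _ ((hB' x).mp hx))
    rw [smul_inv_smul] at hy
    constructor
    · intro h
      simpa using add_mem hy h
    · intro h
      simpa using sub_mem h hy
  obtain ⟨h₁, hh₁⟩ := Algebra.IsInvariant.exists_smul_of_under_eq_of_profinite (A := B') (G := H)
    (g • centre A) (centre A) hunder
  set g' : Γℚ := (h₁ : Γℚ) * g with hg'def
  have hfix : ∀ (h : H), ∀ x ∈ L, (h : Γℚ) x = x := fun h x hx ↦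
    (IntermediateField.mem_fixingSubgroup_iff L _).mp h.2 x hx
  have hg'stab : g' • centre A = centre A := by
    rw [hg'def, mul_smul]
    exact hh₁.symm
  have hgLx : ∀ x ∈ L, g x ∈ L := fun x hx ↦ by
    have h1 : g x = algebraMap L _ (AlgEquiv.restrictNormal g L ⟨x, hx⟩) :=
      (AlgEquiv.restrictNormal_commutes g L ⟨x, hx⟩).symm
    rw [h1]
    exact SetLike.coe_mem _
  have hg'L : ∀ x ∈ L, g' x = g x := fun x hx ↦ hfix h₁ _ (hgLx x hx)
  let f : (Zbar ⧸ centre A) ≃+* (Zbar ⧸ centre A) :=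
    Ideal.quotientEquiv (centre A) (centre A) (MulSemiringAction.toRingEquiv Γℚ Zbar g')
      hg'stab.symm
  have : (centre A).LiesOver ((centre A).under B') := ⟨rfl⟩
  let e : (Zbar ⧸ centre A) ≃ₐ[B' ⧸ (centre A).under B'] (Zbar ⧸ centre A) :=
    AlgEquiv.ofRingEquiv (f := f) fun x ↦ by
      obtain ⟨⟨x, hx⟩, rfl⟩ := Ideal.Quotient.mk_surjective x
      show f (Ideal.Quotient.mk _ x) = Ideal.Quotient.mk _ x
      rw [show f (Ideal.Quotient.mk _ x) = Ideal.Quotient.mk (centre A) (g' • x) from rfl,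
        Ideal.Quotient.eq]
      have hxL := (hB' x).mp hx
      show g' • x - x ∈ centre A
      have : g' • x = g • x := Subtype.ext (hg'L _ hxL)
      rw [this]
      exact hg x hxL
  obtain ⟨⟨h₂, hh₂⟩, hh₂e⟩ :=
    Ideal.Quotient.stabilizerHom_surjective_of_profinite (G := H) _ (centre A) e
  refine ⟨(h₂ : Γℚ)⁻¹ * g', mem_inertiaSubgroupIn_iff_centre.mpr fun x ↦ ?_, fun x hx ↦ ?_⟩
  · have h3 : g' • x - (h₂ : Γℚ) • x ∈ centre A := by
      rw [← Ideal.Quotient.eq]
      exact (DFunLike.congr_fun hh₂e (Ideal.Quotient.mk _ x)).symm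
    have h4 : (h₂ : Γℚ)⁻¹ • centre A = centre A := inv_smul_eq_iff.mpr hh₂.symm
    rw [← h4, Ideal.mem_pointwise_smul_iff_inv_smul_mem, inv_inv, smul_sub, ← mul_smul,
      mul_inv_cancel_left]
    exact h3
  · show (h₂ : Γℚ)⁻¹ (g' x) = g x
    rw [hg'L x hx]
    exact hfix h₂⁻¹ _ (hgLx x hx)

end profinite

/-- A Frobenius element of a normal subextension lifts to a Frobenius element of `ℚ̄`. -/
theorem exists_isFrobeniusAt_eqOn (L : IntermediateField ℚ (AlgebraicClosure ℚ)) [Normal ℚ L]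
    {l : ℕ} (hl : l.Prime) {A : ValuationSubring (AlgebraicClosure ℚ)} (hA : A.LiesOverPrime l)
    (g : Γℚ) (hg : ∀ x : Zbar, (x : AlgebraicClosure ℚ) ∈ L → g • x - x ^ l ∈ centre A) :
    ∃ φ : Γℚ, A.IsFrobeniusAt φ l ∧ ∀ x ∈ L, φ x = g x := by
  obtain ⟨φ, hφ⟩ := exists_isFrobeniusAt hl hA
  have hdec : φ⁻¹ • A = A :=
    inv_smul_eq_iff.mpr (MulAction.mem_stabilizer_iff.mp hφ.mem_decompositionSubgroup).symm
  obtain ⟨ι, hι, hιg⟩ := exists_mem_inertiaSubgroupIn_eqOn L (A := A) ((φ⁻¹ * g : Γℚ)) fun x hx ↦ by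
    rw [← hdec, centre_smul, Ideal.mem_pointwise_smul_iff_inv_smul_mem, inv_inv, smul_sub,
      mul_smul, smul_inv_smul]
    simpa using sub_mem (hg x hx) ((isFrobeniusAt_iff_centre hl.pos).mp hφ x)
  refine ⟨φ * ι, isFrobeniusAt_mul_of_mem_inertiaSubgroupIn hl.pos hφ hι, fun x hx ↦ ?_⟩
  rw [AlgEquiv.mul_apply, hιg x hx]
  simp

end FLTAgent.Frobenius
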