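import Mathlib.RingTheory.Frobenius
import Mathlib.NumberTheory.NumberField.Discriminant.Different
import Mathlib.FieldTheory.Normal.Closure
import Fermat.Prelude.Def_GaloisRep_Residual
import Fermat.Agent.Frobenius.Places

/-!
Restriction of Frobenius and inertia to a normal number field inside `ℚ̄`; inertia is trivial at
primes not dividing the discriminant.
-/

set_option autoImplicit false

open scoped NumberField Pointwise

namespace FLTAgent.Frobenius

variable (L : IntermediateField ℚ (AlgebraicClosure ℚ))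

/-- The inclusion of the integers of a subfield of `ℚ̄` in the algebraic integers. -/
noncomputable def toZbar : 𝓞 L →+* Zbar where
  toFun x := ⟨((x : L) : AlgebraicClosure ℚ),
    (NumberField.RingOfIntegers.isIntegral_coe x).map (L.val.restrictScalars ℤ)⟩
  map_one' := rfl
  map_mul' _ _ := rfl
  map_zero' := rfl
  map_add' _ _ := rfl

@[simp] lemma coe_toZbar (x : 𝓞 L) :
    ((toZbar L x : Zbar) : AlgebraicClosure ℚ) = ((x : L) : AlgebraicClosure ℚ) := rfl

lemma toZbar_injective : Function.Injective (toZbar L) := fun _ _ h ↦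
  NumberField.RingOfIntegers.ext (Subtype.ext (congrArg Subtype.val h :))

lemma exists_toZbar_eq {x : Zbar} (hx : (x : AlgebraicClosure ℚ) ∈ L) :
    ∃ y : 𝓞 L, toZbar L y = x :=
  ⟨⟨⟨x, hx⟩, (isIntegral_algHom_iff (L.val.restrictScalars ℤ) Subtype.val_injective).mp x.2⟩,
    Subtype.ext rfl⟩

/-- The prime of `𝓞 L` cut out by a valuation subring of `ℚ̄`. -/
noncomputable def centreIn (A : ValuationSubring (AlgebraicClosure ℚ)) : Ideal (𝓞 L) :=
  (centre A).comap (toZbar L)

instance centreIn_isPrime (A : ValuationSubring (AlgebraicClosure ℚ)) :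
    (centreIn L A).IsPrime := Ideal.comap_isPrime _ _

lemma natCast_mem_centreIn {A : ValuationSubring (AlgebraicClosure ℚ)} {l : ℕ}
    (hA : A.LiesOverPrime l) : (l : 𝓞 L) ∈ centreIn L A := by
  rw [centreIn, Ideal.mem_comap, map_natCast]
  exact liesOverPrime_iff.mp hA

lemma under_centreIn {A : ValuationSubring (AlgebraicClosure ℚ)} {l : ℕ}
    (hl : l.Prime) (hA : A.LiesOverPrime l) :
    (centreIn L A).under ℤ = Ideal.span {(l : ℤ)} := by
  rw [← under_centre hl hA, centreIn, Ideal.under, Ideal.under, Ideal.comap_comap]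
  congr 1

lemma natCard_quotient_under_centreIn {A : ValuationSubring (AlgebraicClosure ℚ)} {l : ℕ}
    (hl : l.Prime) (hA : A.LiesOverPrime l) :
    Nat.card (ℤ ⧸ (centreIn L A).under ℤ) = l := by
  rw [under_centreIn L hl hA, Nat.card_congr (Int.quotientSpanNatEquivZMod l).toEquiv,
    Nat.card_zmod]

variable [Normal ℚ L]

lemma apply_coe_eq (σ : Γℚ) (x : L) :
    σ (x : AlgebraicClosure ℚ) =
      ((AlgEquiv.restrictNormalHom L σ x : L) : AlgebraicClosure ℚ) :=
  (AlgEquiv.restrictNormal_commutes σ L x).symm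

lemma toZbar_restrict_smul (σ : Γℚ) (x : 𝓞 L) :
    toZbar L (AlgEquiv.restrictNormalHom L σ • x) = σ • toZbar L x :=
  Subtype.ext (apply_coe_eq L σ x).symm

/-- The restriction of a Frobenius element is a Frobenius element of the number field. -/
theorem isArithFrobAt_restrict {A : ValuationSubring (AlgebraicClosure ℚ)} {l : ℕ}
    (hl : l.Prime) (hA : A.LiesOverPrime l) {σ : Γℚ} (hσ : A.IsFrobeniusAt σ l) :
    IsArithFrobAt ℤ (AlgEquiv.restrictNormalHom L σ) (centreIn L A) := by
  intro x
  rw [natCard_quotient_under_centreIn L hl hA, centreIn, Ideal.mem_comap, map_sub, map_pow]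
  change toZbar L (AlgEquiv.restrictNormalHom L σ • x) - _ ∈ _
  rw [toZbar_restrict_smul]
  exact (isFrobeniusAt_iff_centre hl.pos).mp hσ _

variable [FiniteDimensional ℚ L]

local instance numberField_of_finiteDimensional : NumberField L :=
  { to_finiteDimensional := inferInstance }

/-- At a prime not dividing the discriminant of a normal number field, inertia fixes it. -/
theorem inertia_le_fixingSubgroup_of_not_dvd_discr {l : ℕ} (hl : l.Prime)
    (h : ¬ (l : ℤ) ∣ NumberField.discr L) {A : ValuationSubring (AlgebraicClosure ℚ)}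
    (hA : A.LiesOverPrime l) : A.inertiaSubgroupIn ℚ ≤ L.fixingSubgroup := by
  obtain ⟨φ, hφ⟩ := exists_isFrobeniusAt hl hA
  intro ι hι
  have hun : Algebra.IsUnramifiedAt ℤ (centreIn L A) :=
    (NumberField.not_dvd_discr_iff_forall_mem L (𝓞 L) (Nat.prime_iff_prime_int.mp hl)).mp h
      (centreIn L A) inferInstance (by simpa using natCast_mem_centreIn L hA)
  have h1 := isArithFrobAt_restrict L hl hA hφ
  have h2 := isArithFrobAt_restrict L hl hA
    (isFrobeniusAt_mul_of_mem_inertiaSubgroupIn hl.pos hφ hι)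
  have heq := AlgHom.IsArithFrobAt.eq_of_isUnramifiedAt h1 h2
    (centreIn L A).primeCompl_le_nonZeroDivisors
  rw [IntermediateField.mem_fixingSubgroup_iff]
  intro x hx
  have hres : AlgEquiv.restrictNormalHom L φ = AlgEquiv.restrictNormalHom L (φ * ι) := by
    refine AlgEquiv.ext fun y ↦ ?_
    obtain ⟨a, b, hb, rfl⟩ := IsFractionRing.div_surjective (𝓞 L) y
    have key : ∀ z : 𝓞 L, AlgEquiv.restrictNormalHom L φ (z : L) =
        AlgEquiv.restrictNormalHom L (φ * ι) (z : L) := fun z ↦
      congrArg (fun w : 𝓞 L ↦ (w : L)) (DFunLike.congr_fun heq z)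
    rw [map_div₀, map_div₀, key a, key b]
  rw [map_mul, left_eq_mul] at hres
  have := congrArg (fun e : L ≃ₐ[ℚ] L ↦ e ⟨x, hx⟩) hres
  rw [show ι x = ι ((⟨x, hx⟩ : L) : AlgebraicClosure ℚ) from rfl, apply_coe_eq L ι]
  simpa using congrArg Subtype.val this

omit [Normal ℚ L] in
/-- Only finitely many primes ramify in a number field. -/
theorem exists_finset_inertia_le_fixingSubgroup :
    ∃ S : Finset ℕ, ∀ l : ℕ, l.Prime → l ∉ S →
      ∀ A : ValuationSubring (AlgebraicClosure ℚ), A.LiesOverPrime l →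
        A.inertiaSubgroupIn ℚ ≤ L.fixingSubgroup := by
  have : Algebra.IsAlgebraic ℚ (AlgebraicClosure ℚ) := AlgebraicClosure.isAlgebraic ℚ
  have : IsAlgClosure ℚ (AlgebraicClosure ℚ) := ⟨inferInstance, inferInstance⟩
  have : Normal ℚ (AlgebraicClosure ℚ) := IsAlgClosure.normal ℚ (AlgebraicClosure ℚ)
  let M := IntermediateField.normalClosure ℚ L (AlgebraicClosure ℚ)
  have : Normal ℚ M := normalClosure.normal ℚ L (AlgebraicClosure ℚ)
  have : FiniteDimensional ℚ M := normalClosure.is_finiteDimensional ℚ L (AlgebraicClosure ℚ)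
  have : NumberField M := { to_finiteDimensional := inferInstance }
  refine ⟨(NumberField.discr M).natAbs.primeFactors, fun l hl hlS A hA ↦ ?_⟩
  refine (inertia_le_fixingSubgroup_of_not_dvd_discr M hl (fun h ↦ hlS ?_) hA).trans
    (IntermediateField.fixingSubgroup_antitone L.le_normalClosure)
  rw [Nat.mem_primeFactors]
  exact ⟨hl, Int.natCast_dvd.mp h, Int.natAbs_ne_zero.mpr (NumberField.discr_ne_zero M)⟩

omit [FiniteDimensional ℚ L] [Normal ℚ L] in
/-- A representation factoring through a finite level is unramified outside a finite set. -/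
theorem exists_finset_forall_inertia_eq_one {M : Type} [MulOneClass M] (ρ : Γℚ →* M)
    (h : GaloisFactorsThroughFiniteLevel ρ) :
    ∃ S : Finset ℕ, ∀ l : ℕ, l.Prime → l ∉ S →
      ∀ A : ValuationSubring (AlgebraicClosure ℚ), A.LiesOverPrime l →
        ∀ σ ∈ A.inertiaSubgroupIn ℚ, ρ σ = 1 := by
  obtain ⟨L, hL, hker⟩ := h
  obtain ⟨S, hS⟩ := exists_finset_inertia_le_fixingSubgroup L
  exact ⟨S, fun l hl hlS A hA σ hσ ↦
    hker σ ((IntermediateField.mem_fixingSubgroup_iff L σ).mp (hS l hl hlS A hA hσ))⟩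

end FLTAgent.Frobenius
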