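import Mathlib.Algebra.Algebra.Rat
import Mathlib.RingTheory.Valuation.LocalSubring
import Mathlib.RingTheory.Valuation.RamificationGroup
import Mathlib.RingTheory.Polynomial.Content
import Mathlib.RingTheory.IntegralClosure.Algebra.Basic
import Fermat.Prelude.Def_EllipticCurve_FrobeniusTrace

/-!
The centre of a valuation subring of an algebraic closure of `ℚ` on the ring of algebraic
integers, and the fact that the valuation subring is the localisation at its centre.
-/

set_option autoImplicit false

namespace FLTAgent.Frobenius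

open Polynomial

/-- The absolute Galois group of `ℚ`. -/
abbrev Γℚ : Type := AlgebraicClosure ℚ ≃ₐ[ℚ] AlgebraicClosure ℚ

/-- The ring of all algebraic integers. -/
abbrev Zbar : Type := integralClosure ℤ (AlgebraicClosure ℚ)

variable {K : Type*} [Field K] (A : ValuationSubring K)

lemma intCast_mem_valuationSubring (n : ℤ) : (n : K) ∈ A := by
  exact intCast_mem A.toSubring n

lemma mem_of_isIntegral {x : K} (hx : IsIntegral ℤ x) : x ∈ A := by
  by_contra h
  obtain ⟨p, hp, hpx⟩ := hx
  have : IsIntegral A x := by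
    refine ⟨p.map (Int.castRingHom A), hp.map _, ?_⟩
    rw [eval₂_map, RingHom.ext_int ((algebraMap A K).comp (Int.castRingHom A)) (algebraMap ℤ K)]
    exact hpx
  obtain ⟨y, hy⟩ := IsIntegrallyClosed.isIntegral_iff.mp this
  exact h (hy ▸ y.2)

lemma sub_pow_mem {x y : K} (hx : x ∈ A) (hy : y ∈ A) (q : ℕ) : y - x ^ q ∈ A :=
  sub_mem hy (pow_mem hx q)

lemma nonunits_add_mem {x y : K} (hx : x ∈ A.nonunits) (hy : y ∈ A.nonunits) :
    x + y ∈ A.nonunits :=
  A.nonunits.add_mem hx hy

lemma nonunits_mul_mem {x y : K} (hx : x ∈ A) (hy : y ∈ A.nonunits) : x * y ∈ A.nonunits := by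
  rw [ValuationSubring.mem_nonunits_iff] at hy ⊢
  rw [map_mul]
  exact mul_lt_one_of_nonneg_of_lt_one_right ((A.valuation_le_one_iff x).mpr hx) zero_le hy

lemma nonunits_mul_mem_or {x y : K} (hxy : x * y ∈ A.nonunits) :
    x ∈ A.nonunits ∨ y ∈ A.nonunits := by
  simp only [ValuationSubring.mem_nonunits_iff, map_mul] at hxy ⊢
  by_contra! h
  exact (not_le.mpr hxy) (one_le_mul h.1 h.2)

lemma one_notMem_nonunits : (1 : K) ∉ A.nonunits := by
  simp [ValuationSubring.mem_nonunits_iff]

lemma inv_mem_of_notMem_nonunits {x : K} (hx : x ∉ A.nonunits) : x⁻¹ ∈ A := by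
  rw [ValuationSubring.mem_nonunits_iff_or] at hx
  by_contra h
  exact hx (Or.inr h)

lemma div_mem_nonunits_iff {a b : K} (hb : b ∉ A.nonunits) (hbA : b ∈ A) :
    a / b ∈ A.nonunits ↔ a ∈ A.nonunits := by
  constructor
  · intro h
    have h0 : b ≠ 0 := fun h0 ↦ hb (h0 ▸ A.nonunits.zero_mem)
    have := nonunits_mul_mem A hbA h
    rwa [mul_div_cancel₀ _ h0] at this
  · intro h
    rw [div_eq_inv_mul]
    exact nonunits_mul_mem A (inv_mem_of_notMem_nonunits A hb) h

/-- The centre of `A` on the algebraic integers. -/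
def centre (A : ValuationSubring (AlgebraicClosure ℚ)) : Ideal Zbar where
  carrier := {x | (x : AlgebraicClosure ℚ) ∈ A.nonunits}
  zero_mem' := by simp
  add_mem' hx hy := by simpa using nonunits_add_mem A hx hy
  smul_mem' c x hx := by simpa using nonunits_mul_mem A (mem_of_isIntegral A c.2) hx

@[simp] lemma mem_centre {A : ValuationSubring (AlgebraicClosure ℚ)} {x : Zbar} :
    x ∈ centre A ↔ (x : AlgebraicClosure ℚ) ∈ A.nonunits := Iff.rfl

instance centre_isPrime (A : ValuationSubring (AlgebraicClosure ℚ)) : (centre A).IsPrime where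
  ne_top' := fun h ↦ one_notMem_nonunits A (by
    have := (Ideal.eq_top_iff_one _).mp h
    simpa using this)
  mem_or_mem' hxy := nonunits_mul_mem_or A (by simpa using hxy)

/-- Every element of a valuation subring of `ℚ̄` is a fraction `a / b` of algebraic integers with
`b` outside the centre. -/
theorem exists_eq_div_of_mem {A : ValuationSubring (AlgebraicClosure ℚ)} {x : AlgebraicClosure ℚ}
    (hx : x ∈ A) : ∃ a b : Zbar, b ∉ centre A ∧ x = (a : AlgebraicClosure ℚ) / b := by
  have halg : IsAlgebraic ℤ x :=
    (IsFractionRing.isAlgebraic_iff ℤ ℚ (AlgebraicClosure ℚ)).mpr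
      ((AlgebraicClosure.isAlgebraic ℚ).isAlgebraic x)
  obtain ⟨p₀, hp₀, hp₀x⟩ := halg
  obtain ⟨p, hp, hpx⟩ : ∃ p : ℤ[X], p.content = 1 ∧ aeval x p = 0 :=
    ⟨p₀.primPart, p₀.content_primPart, aeval_primPart_eq_zero hp₀ hp₀x⟩
  set t : ℕ → AlgebraicClosure ℚ := fun k ↦ aeval x (divX^[k] p) with ht
  have hcoeff : ∀ k i, (divX^[k] p).coeff i = p.coeff (i + k) := by
    intro k
    induction k with
    | zero => intro i; simp
    | succ k ih =>
      intro i
      rw [Function.iterate_succ', Function.comp_apply, coeff_divX, ih]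
      ring_nf
  have hrec : ∀ k, t k = x * t (k + 1) + (p.coeff k : ℤ) := by
    intro k
    have h1 : divX^[k] p = X * divX (divX^[k] p) + C ((divX^[k] p).coeff 0) :=
      (X_mul_divX_add _).symm
    rw [hcoeff, zero_add] at h1
    simp only [ht]
    rw [Function.iterate_succ_apply']
    conv_lhs => rw [h1]
    simp
  have ht0 : t 0 = 0 := by simpa [ht] using hpx
  have hint : ∀ k, IsIntegral ℤ (t k) := by
    intro k
    by_contra h
    obtain ⟨V, -, hV⟩ := Subring.exists_le_valuationSubring_of_isIntegrallyClosedIn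
      (R := (integralClosure ℤ (AlgebraicClosure ℚ)).toSubring) (x := t k)
      (fun hk ↦ h hk)
    apply hV
    rcases V.mem_or_inv_mem x with hxV | hxV
    · have : ∀ f : ℤ[X], aeval x f ∈ V := fun f ↦ by
        induction f using Polynomial.induction_on' with
        | add f g hf hg => rw [map_add]; exact add_mem hf hg
        | monomial n a => rw [aeval_monomial]; exact mul_mem (intCast_mem_valuationSubring V a) (pow_mem hxV n)
      exact this _
    · clear h hV
      induction k with
      | zero => rw [ht0]; exact zero_mem V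
      | succ k ih =>
        rcases eq_or_ne x 0 with h0 | h0
        · have hx' : x ∈ V := h0 ▸ zero_mem V
          have : ∀ f : ℤ[X], aeval x f ∈ V := fun f ↦ by
            induction f using Polynomial.induction_on' with
            | add f g hf hg => rw [map_add]; exact add_mem hf hg
            | monomial n a =>
              rw [aeval_monomial]
              exact mul_mem (intCast_mem_valuationSubring V a) (pow_mem hx' n)
          exact this _
        · have : t (k + 1) = x⁻¹ * (t k - (p.coeff k : ℤ)) := by
            rw [hrec k]; field_simp; ring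
          rw [this]
          exact mul_mem hxV (sub_mem ih (intCast_mem_valuationSubring V _))
  by_contra hcon
  push Not at hcon
  have hmem : ∀ k, t k ∈ A.nonunits := by
    intro k
    rcases k with _ | k
    · rw [ht0]; exact A.nonunits.zero_mem
    by_contra hk
    have hxt : x * t (k + 1) = t k - (p.coeff k : ℤ) := by rw [hrec k]; ring
    refine hcon ⟨x * t (k + 1), ?_⟩ ⟨t (k + 1), hint _⟩ hk ?_
    · rw [hxt]
      exact (hint k).sub (isIntegral_algebraMap (R := ℤ) (x := p.coeff k))
    · have h0 : t (k + 1) ≠ 0 := fun h0 ↦ hk (h0 ▸ A.nonunits.zero_mem)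
      simp [mul_div_assoc, div_self h0]
  let J : Ideal ℤ :=
    { carrier := {n | (n : AlgebraicClosure ℚ) ∈ A.nonunits}
      zero_mem' := by simp
      add_mem' := fun ha hb ↦ by simpa using nonunits_add_mem A ha hb
      smul_mem' := fun c a ha ↦ by
        simpa using nonunits_mul_mem A (intCast_mem_valuationSubring A c) ha }
  have hco : ∀ k, p.coeff k ∈ J := by
    intro k
    show ((p.coeff k : ℤ) : AlgebraicClosure ℚ) ∈ A.nonunits
    have : ((p.coeff k : ℤ) : AlgebraicClosure ℚ) = t k - x * t (k + 1) := by rw [hrec k]; ring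
    rw [this]
    exact A.nonunits.sub_mem (hmem k) (nonunits_mul_mem A hx (hmem _))
  obtain ⟨d, hd⟩ := IsPrincipalIdealRing.principal J
  have hdvd : C d ∣ p := C_dvd_iff_dvd_coeff _ _ |>.mpr fun k ↦
    Ideal.mem_span_singleton.mp (hd.le (hco k))
  have hu : d ∣ 1 := hp ▸ (dvd_content_iff_C_dvd).mpr hdvd
  have h1 : (1 : ℤ) ∈ J := hd.ge (Ideal.mem_span_singleton.mpr hu)
  exact one_notMem_nonunits A (by simpa [J] using h1)

/-- A valuation subring of `ℚ̄` is determined by its centre on the algebraic integers. -/
theorem eq_of_centre_eq {A B : ValuationSubring (AlgebraicClosure ℚ)} (h : centre A = centre B) :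
    A = B := by
  have key : ∀ A B : ValuationSubring (AlgebraicClosure ℚ), centre A = centre B → A ≤ B := by
    intro A B h x hx
    obtain ⟨a, b, hb, rfl⟩ := exists_eq_div_of_mem hx
    rw [h, mem_centre] at hb
    rw [div_eq_mul_inv]
    exact mul_mem (mem_of_isIntegral B a.2) (inv_mem_of_notMem_nonunits B hb)
  exact le_antisymm (key A B h) (key B A h.symm)

lemma liesOverPrime_iff {A : ValuationSubring (AlgebraicClosure ℚ)} {l : ℕ} :
    A.LiesOverPrime l ↔ (l : Zbar) ∈ centre A := by
  simp [ValuationSubring.LiesOverPrime]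

/-- If `A` lies over the prime `l` then an integer is a nonunit of `A` iff it is divisible by
`l`. -/
lemma intCast_mem_nonunits_iff {A : ValuationSubring (AlgebraicClosure ℚ)} {l : ℕ}
    (hl : l.Prime) (hA : A.LiesOverPrime l) (n : ℤ) :
    (n : AlgebraicClosure ℚ) ∈ A.nonunits ↔ (l : ℤ) ∣ n := by
  constructor
  · intro hn
    by_contra h
    obtain ⟨u, v, huv⟩ := (Nat.prime_iff_prime_int.mp hl).coprime_iff_not_dvd.mpr h
    apply one_notMem_nonunits A
    have := nonunits_add_mem A
      (nonunits_mul_mem A (intCast_mem_valuationSubring A u) (show ((l : ℤ) : AlgebraicClosure ℚ)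
        ∈ A.nonunits by simpa [ValuationSubring.LiesOverPrime] using hA))
      (nonunits_mul_mem A (intCast_mem_valuationSubring A v) hn)
    rw [← Int.cast_mul, ← Int.cast_mul, ← Int.cast_add, huv] at this
    simpa using this
  · rintro ⟨k, rfl⟩
    rw [Int.cast_mul, mul_comm]
    exact nonunits_mul_mem A (intCast_mem_valuationSubring A k)
      (by simpa [ValuationSubring.LiesOverPrime] using hA)

lemma under_centre {A : ValuationSubring (AlgebraicClosure ℚ)} {l : ℕ}
    (hl : l.Prime) (hA : A.LiesOverPrime l) :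
    (centre A).under ℤ = Ideal.span {(l : ℤ)} := by
  ext n
  rw [Ideal.mem_span_singleton, ← intCast_mem_nonunits_iff hl hA, Ideal.under, Ideal.mem_comap,
    mem_centre]
  simp

end FLTAgent.Frobenius
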