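import Mathlib.RingTheory.Invariant.Profinite
import Mathlib.RingTheory.Invariant.Galois
import Mathlib.FieldTheory.Galois.Profinite
import Mathlib.FieldTheory.Galois.Infinite
import Fermat.Agent.Frobenius.Centre

/-!
Existence of Frobenius elements, transitivity on places above a prime, and lifting of Frobenius
and inertia elements through finite Galois subextensions.
-/

set_option autoImplicit false

open scoped Pointwise

namespace FLTAgent.Frobenius

local instance isAlgebraic_qbar : Algebra.IsAlgebraic ℚ (AlgebraicClosure ℚ) :=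
  AlgebraicClosure.isAlgebraic ℚ

local instance isAlgClosure_qbar : IsAlgClosure ℚ (AlgebraicClosure ℚ) :=
  ⟨inferInstance, inferInstance⟩

local instance isGalois_qbar : IsGalois ℚ (AlgebraicClosure ℚ) :=
  { to_normal := IsAlgClosure.normal ℚ (AlgebraicClosure ℚ) }

@[simp] lemma coe_smul_zbar (σ : Γℚ) (x : Zbar) :
    ((σ • x : Zbar) : AlgebraicClosure ℚ) = σ (x : AlgebraicClosure ℚ) := rfl

section profinite

local instance zbarTopology : TopologicalSpace Zbar := ⊥

local instance zbarDiscrete : DiscreteTopology Zbar := ⟨rfl⟩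

local instance zbarContinuousSMul : ContinuousSMul Γℚ Zbar := by
  rw [continuousSMul_iff_stabilizer_isOpen]
  intro x
  have : MulAction.stabilizer Γℚ x = MulAction.stabilizer Γℚ (x : AlgebraicClosure ℚ) := by
    ext σ; simp [MulAction.mem_stabilizer_iff, Subtype.ext_iff]
  rw [this]
  exact stabilizer_isOpen_of_isIntegral (K := ℚ) (L := AlgebraicClosure ℚ) _

lemma isInvariant_zbar : Algebra.IsInvariant ℤ Zbar Γℚ := by
  refine ⟨fun b hb ↦ ?_⟩
  obtain ⟨r, hr⟩ := (InfiniteGalois.mem_range_algebraMap_iff_fixed (k := ℚ)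
    (b : AlgebraicClosure ℚ)).mpr fun σ ↦ congrArg Subtype.val (hb σ)
  have : IsIntegral ℤ r := (isIntegral_algebraMap_iff
    (algebraMap ℚ (AlgebraicClosure ℚ)).injective).mp (by rw [hr]; exact b.2)
  obtain ⟨n, rfl⟩ := IsIntegrallyClosed.isIntegral_iff.mp this
  exact ⟨n, Subtype.ext (by simpa using hr)⟩

/-- Transitivity of the Galois group on the places above a prime. -/
theorem exists_smul_eq {l : ℕ} (hl : l.Prime) {A B : ValuationSubring (AlgebraicClosure ℚ)}
    (hA : A.LiesOverPrime l) (hB : B.LiesOverPrime l) : ∃ τ : Γℚ, τ • A = B := by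
  have := isInvariant_zbar
  obtain ⟨τ, hτ⟩ := Algebra.IsInvariant.exists_smul_of_under_eq_of_profinite (A := ℤ) (G := Γℚ)
    (centre A) (centre B) (by rw [under_centre hl hA, under_centre hl hB])
  refine ⟨τ, eq_of_centre_eq ?_⟩
  rw [hτ]
  ext x
  rw [Ideal.mem_pointwise_smul_iff_inv_smul_mem, mem_centre, mem_centre,
    ValuationSubring.mem_nonunits_iff_or, ValuationSubring.mem_nonunits_iff_or,
    ValuationSubring.mem_pointwise_smul_iff_inv_smul_mem]
  simp only [coe_smul_zbar, AlgEquiv.smul_def, map_inv₀, map_eq_zero]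

lemma centre_smul (τ : Γℚ) (A : ValuationSubring (AlgebraicClosure ℚ)) :
    centre (τ • A) = τ • centre A := by
  ext x
  rw [Ideal.mem_pointwise_smul_iff_inv_smul_mem, mem_centre, mem_centre,
    ValuationSubring.mem_nonunits_iff_or, ValuationSubring.mem_nonunits_iff_or,
    ValuationSubring.mem_pointwise_smul_iff_inv_smul_mem]
  simp only [coe_smul_zbar, AlgEquiv.smul_def, map_inv₀, map_eq_zero]

/-- The congruence `σ x ≡ x ^ q` on algebraic integers propagates to the valuation ring. -/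
theorem forall_sub_pow_mem_iff {A : ValuationSubring (AlgebraicClosure ℚ)} {σ : Γℚ} {q : ℕ}
    (hq : 0 < q) :
    (∀ x : Zbar, σ • x - x ^ q ∈ centre A) ↔
      σ ∈ A.decompositionSubgroup ℚ ∧ ∀ x ∈ A, σ x - x ^ q ∈ A.nonunits := by
  constructor
  · intro h
    have hpres : ∀ x : Zbar, σ • x ∈ centre A ↔ x ∈ centre A := by
      intro x
      rw [show σ • x = (σ • x - x ^ q) + x ^ q by ring, Ideal.add_mem_iff_right _ (h x)]
      exact (centre_isPrime A).pow_mem_iff_mem q hq
    have hfix : σ • A = A := by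
      refine eq_of_centre_eq ?_
      rw [centre_smul]
      ext x
      rw [Ideal.mem_pointwise_smul_iff_inv_smul_mem, ← hpres, smul_inv_smul]
    refine ⟨hfix, fun x hx ↦ ?_⟩
    obtain ⟨a, b, hb, rfl⟩ := exists_eq_div_of_mem hx
    have hb' : σ • b ∉ centre A := fun h' ↦ hb ((hpres b).mp h')
    have hb0 : (b : AlgebraicClosure ℚ) ≠ 0 := fun h0 ↦ hb (by
      rw [mem_centre, h0]; exact A.nonunits.zero_mem)
    have hσb0 : σ (b : AlgebraicClosure ℚ) ≠ 0 := by simpa using hb0
    have hd : (σ • b) * b ^ q ∉ centre A := fun h' ↦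
      ((centre_isPrime A).mem_or_mem h').elim hb'
        (fun h'' ↦ hb ((centre_isPrime A).mem_of_pow_mem q h''))
    have hn : (σ • a) * b ^ q - a ^ q * (σ • b) ∈ centre A := by
      rw [show (σ • a) * b ^ q - a ^ q * (σ • b) =
        (σ • a - a ^ q) * b ^ q - a ^ q * (σ • b - b ^ q) by ring]
      exact sub_mem (Ideal.mul_mem_right _ _ (h a)) (Ideal.mul_mem_left _ _ (h b))
    have := (div_mem_nonunits_iff A (a := ((σ • a) * b ^ q - a ^ q * (σ • b) : Zbar))
      (mem_centre.not.mp hd) (mem_of_isIntegral A ((σ • b) * b ^ q).2)).mpr hn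
    convert this using 1
    push_cast [coe_smul_zbar]
    rw [map_div₀, div_pow]
    field_simp
  · rintro ⟨-, h⟩ x
    simpa using h x (mem_of_isIntegral A x.2)

/-- The Frobenius condition in terms of the valuation ring. -/
theorem isFrobeniusAt_iff {A : ValuationSubring (AlgebraicClosure ℚ)} {σ : Γℚ} {q : ℕ} :
    A.IsFrobeniusAt σ q ↔
      σ ∈ A.decompositionSubgroup ℚ ∧ ∀ x ∈ A, σ x - x ^ q ∈ A.nonunits := by
  constructor
  · rintro ⟨hσ, h⟩
    refine ⟨hσ, fun x hx ↦ ?_⟩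
    have := h (IsLocalRing.residue A ⟨x, hx⟩)
    rw [← map_pow] at this
    have h2 : IsLocalRing.residue A ((⟨σ, hσ⟩ : A.decompositionSubgroup ℚ) • ⟨x, hx⟩) =
        IsLocalRing.residue A (⟨x, hx⟩ ^ q) := this
    rw [← sub_eq_zero, ← map_sub, IsLocalRing.residue_eq_zero_iff,
      ← ValuationSubring.coe_mem_nonunits_iff] at h2
    exact h2
  · rintro ⟨hσ, h⟩
    refine ⟨hσ, fun x ↦ ?_⟩
    obtain ⟨⟨x, hx⟩, rfl⟩ := IsLocalRing.residue_surjective x
    rw [← map_pow]
    show IsLocalRing.residue A ((⟨σ, hσ⟩ : A.decompositionSubgroup ℚ) • ⟨x, hx⟩) =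
      IsLocalRing.residue A (⟨x, hx⟩ ^ q)
    rw [← sub_eq_zero, ← map_sub, IsLocalRing.residue_eq_zero_iff,
      ← ValuationSubring.coe_mem_nonunits_iff]
    exact h x hx

theorem mem_inertiaSubgroupIn_iff {A : ValuationSubring (AlgebraicClosure ℚ)} {σ : Γℚ} :
    σ ∈ A.inertiaSubgroupIn ℚ ↔
      σ ∈ A.decompositionSubgroup ℚ ∧ ∀ x ∈ A, σ x - x ∈ A.nonunits := by
  have key : σ ∈ A.inertiaSubgroupIn ℚ ↔ A.IsFrobeniusAt σ 1 := by
    unfold ValuationSubring.inertiaSubgroupIn
    constructor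
    · rintro ⟨⟨τ, hτ⟩, hmem, rfl⟩
      refine ⟨hτ, fun x ↦ ?_⟩
      rw [pow_one]
      exact congrArg (fun f : RingAut (IsLocalRing.ResidueField A) ↦ f x) (MonoidHom.mem_ker.mp hmem)
    · rintro ⟨hτ, h⟩
      refine ⟨⟨σ, hτ⟩, MonoidHom.mem_ker.mpr (RingEquiv.ext fun x ↦ ?_), rfl⟩
      simpa [MulSemiringAction.toRingAut_apply] using! (h x).trans (pow_one x)
  rw [key, isFrobeniusAt_iff]
  simp

theorem isFrobeniusAt_iff_centre {A : ValuationSubring (AlgebraicClosure ℚ)} {σ : Γℚ} {q : ℕ}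
    (hq : 0 < q) : A.IsFrobeniusAt σ q ↔ ∀ x : Zbar, σ • x - x ^ q ∈ centre A := by
  rw [isFrobeniusAt_iff, forall_sub_pow_mem_iff hq]

theorem mem_inertiaSubgroupIn_iff_centre {A : ValuationSubring (AlgebraicClosure ℚ)} {σ : Γℚ} :
    σ ∈ A.inertiaSubgroupIn ℚ ↔ ∀ x : Zbar, σ • x - x ∈ centre A := by
  rw [mem_inertiaSubgroupIn_iff]
  simpa using (forall_sub_pow_mem_iff (A := A) (σ := σ) one_pos).symm

/-- Existence of a Frobenius element at every place. -/
theorem exists_isFrobeniusAt {l : ℕ} (hl : l.Prime) {A : ValuationSubring (AlgebraicClosure ℚ)}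
    (hA : A.LiesOverPrime l) : ∃ σ : Γℚ, A.IsFrobeniusAt σ l := by
  have := isInvariant_zbar
  have : Fact l.Prime := ⟨hl⟩
  have : (centre A).LiesOver (Ideal.span {(l : ℤ)}) := ⟨(under_centre hl hA).symm⟩
  have : CharP (Zbar ⧸ centre A) l := by
    refine ⟨fun x ↦ ?_⟩
    rw [← map_natCast (Ideal.Quotient.mk (centre A)), Ideal.Quotient.eq_zero_iff_mem, mem_centre,
      ← Int.natCast_dvd_natCast, ← intCast_mem_nonunits_iff hl hA]
    simp
  have hinj : Function.Injective (frobenius (Zbar ⧸ centre A) l) := by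
    rw [injective_iff_map_eq_zero]
    exact fun x hx ↦ eq_zero_of_pow_eq_zero hx
  have hsurj : Function.Surjective (frobenius (Zbar ⧸ centre A) l) := by
    intro y
    obtain ⟨y, rfl⟩ := Ideal.Quotient.mk_surjective y
    obtain ⟨z, hz⟩ := IsAlgClosed.exists_pow_nat_eq (y : AlgebraicClosure ℚ) hl.pos
    have hzi : IsIntegral ℤ z := IsIntegral.of_pow hl.pos (hz ▸ y.2)
    refine ⟨Ideal.Quotient.mk _ ⟨z, hzi⟩, ?_⟩
    rw [frobenius_def, ← map_pow]
    exact congrArg _ (Subtype.ext (by simpa using hz))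
  let e : (Zbar ⧸ centre A) ≃ₐ[ℤ ⧸ Ideal.span {(l : ℤ)}] (Zbar ⧸ centre A) :=
    AlgEquiv.ofRingEquiv (f := RingEquiv.ofBijective _ ⟨hinj, hsurj⟩) fun x ↦ by
      obtain ⟨n, rfl⟩ := Ideal.Quotient.mk_surjective x
      change frobenius (Zbar ⧸ centre A) l _ = _
      rw [eq_intCast (Ideal.Quotient.mk _) n, map_intCast, map_intCast]
  obtain ⟨⟨σ, hσ⟩, hσe⟩ :=
    Ideal.Quotient.stabilizerHom_surjective_of_profinite (G := Γℚ) _ (centre A) e
  refine ⟨σ, (isFrobeniusAt_iff_centre hl.pos).mpr fun x ↦ ?_⟩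
  rw [← Ideal.Quotient.eq, map_pow]
  exact (DFunLike.congr_fun hσe (Ideal.Quotient.mk _ x))

end profinite

end FLTAgent.Frobenius
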